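import Mathlib
import Fermat.Prelude.Def_GaloisRep_Residual
import Fermat.Prelude.Def_Deformations_MatrixRepresentation

/-!
# P-DS (S48, Deligne–Serre) : architecture interfaces (helper20)

`Prop`-valued statements only.  Blueprint: findings #306 (lead) + findings "P-DS ARCHITECTURE v1".

Blocks
* DS-0   `NebentypusStatement`     : the Hecke relations force the nebentypus `ε`.
* DS-1   `ConjStatement`, `IntegralStatement`, `FiniteConjStatement` : arithmetic of the `a_p`.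
* DS-2   `EisCongrStatement`       : congruence to weight 2 on `Γ₁(M)`, `M ∣ (Nℓ)^∞`.
* DS-3   `Gamma1ResidualStatement` : mod `ℓ` Galois representations for weight 2 with nebentypus
                                     (= "P-ES1", Eichler–Shimura for `Γ₁(M)`).
* DS-SS  `SemisimplifyStatement`   : semisimplification of a residual representation.
* DS-A   `ModLRepStatement`        : DS-0..3 + SS glued.
* DS-4   `RankinStatement`, `EulerLogStatement`, `FewValuesStatement`, `RankinSharpStatement`.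
* DS-5   `ChebDensityStatement`    : Chebotarev, lower Dirichlet density form (P-CHEB phase 2).
* DS-5b  `BoundedImageStatement`   : Deligne–Serre Prop. 7.2 (trace form).
* DS-C   `BoundedOrderStatement`   : the images of the mod `ℓ` representations are bounded.
* DS-6   `LiftStatement`           : representations of `ℓ'`-groups lift to characteristic 0.
* DS-D   `ComplexRepStatement`     : S48 without irreducibility.
* DS-E   `IrredStatement`          : irreducibility.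
-/

set_option autoImplicit false

noncomputable section

open CongruenceSubgroup Polynomial
open scoped MatrixGroups ModularForm

namespace Fermat.Agent.H20.DS

/-- The absolute Galois group of `ℚ` in the prelude's model. -/
abbrev GalQ : Type := AlgebraicClosure ℚ ≃ₐ[ℚ] AlgebraicClosure ℚ

/-- The ring of all algebraic integers (inside `ℂ`). -/
abbrev Zbar : Type := integralClosure ℤ ℂ

/-- `Red φ x y` : the complex number `x` is an algebraic integer and reduces to `y` under `φ`. -/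
def Red {k : Type} [Field k] (φ : Zbar →+* k) (x : ℂ) (y : k) : Prop :=
  ∃ z : Zbar, (z : ℂ) = x ∧ φ z = y

/-- The hypotheses of S48 on `(N, ε, f)`. -/
structure IsDSEigen (N : ℕ) (ε : DirichletCharacter ℂ N) (f : CuspForm (Gamma1 N) 1) : Prop where
  one : ModularFormClass.qCoeff f 1 = 1
  hecke : ∀ p : ℕ, p.Prime → ¬ p ∣ N → ∀ n : ℕ,
    ModularFormClass.qCoeff f (p * n) +
        ε (p : ZMod N) * (if p ∣ n then ModularFormClass.qCoeff f (n / p) else 0) =
      ModularFormClass.qCoeff f p * ModularFormClass.qCoeff f n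

/-- `f` has nebentypus `ψ` : `f ∣[k] γ = ψ(d_γ) f` for `γ ∈ Γ₀(M)`. -/
def HasNebentypus {M : ℕ} (k : ℤ) (ψ : DirichletCharacter ℂ M) (f : UpperHalfPlane → ℂ) : Prop :=
  ∀ γ : SL(2, ℤ), γ ∈ Gamma0 M →
    f ∣[k] γ = (ψ (((γ : Matrix (Fin 2) (Fin 2) ℤ) 1 1 : ℤ) : ZMod M)) • f

/-- Dirichlet prime sum `∑_{p prime, P p} p^{-s}`. -/
def primeSum (P : ℕ → Prop) (s : ℝ) : ℝ :=
  ∑' p : ℕ, Set.indicator {p : ℕ | p.Prime ∧ P p} (fun p : ℕ => (p : ℝ) ^ (-s)) p

/-! ## DS-0 : nebentypus -/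

/-- **DS-0.**  A weight-one cusp form on `Γ₁(N)` with `a₁ = 1` satisfying the Hecke relations
with `ε` at all primes `p ∤ N` has nebentypus `ε`. -/
def NebentypusStatement : Prop :=
  ∀ (N : ℕ) [NeZero N] (ε : DirichletCharacter ℂ N) (f : CuspForm (Gamma1 N) 1),
    IsDSEigen N ε f → HasNebentypus 1 ε (⇑f)

/-! ## DS-1 : conjugation, integrality -/

/-- **DS-1a.**  `q`-expansions of weight-one cusp forms on `Γ₁(N)` are stable under every ring
endomorphism of `ℂ` applied coefficientwise. -/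
def ConjStatement : Prop :=
  ∀ (N : ℕ) [NeZero N] (f : CuspForm (Gamma1 N) 1) (σ : ℂ →+* ℂ),
    ∃ f' : CuspForm (Gamma1 N) 1, ∀ n : ℕ,
      ModularFormClass.qCoeff f' n = σ (ModularFormClass.qCoeff f n)

/-- **DS-1b.**  The eigenvalues `a_p`, `p ∤ N`, are algebraic integers. -/
def IntegralStatement : Prop :=
  ∀ (N : ℕ) [NeZero N] (ε : DirichletCharacter ℂ N) (f : CuspForm (Gamma1 N) 1),
    IsDSEigen N ε f → ∀ p : ℕ, p.Prime → ¬ p ∣ N → IsIntegral ℤ (ModularFormClass.qCoeff f p)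

/-- **DS-1c.**  The system `(a_p)_{p ∤ N}` has only finitely many conjugates, each of which is
again the system of a form satisfying the hypotheses of S48 (for the conjugate character). -/
def FiniteConjStatement : Prop :=
  ∀ (N : ℕ) [NeZero N] (ε : DirichletCharacter ℂ N) (f : CuspForm (Gamma1 N) 1),
    IsDSEigen N ε f →
    ∃ (r : ℕ) (g : Fin r → CuspForm (Gamma1 N) 1) (ε' : Fin r → DirichletCharacter ℂ N),
      (∀ i, IsDSEigen N (ε' i) (g i)) ∧
      ∀ σ : ℂ →+* ℂ, ∃ i, ∀ p : ℕ, p.Prime → ¬ p ∣ N →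
        ModularFormClass.qCoeff (g i) p = σ (ModularFormClass.qCoeff f p)

/-! ## DS-2 : congruence to weight two -/

/-- A weight-two cusp form `h` on `Γ₁(M)` with nebentypus `ψ` whose `q`-expansion is integral and
which is a normalised eigenform modulo `φ` away from `M`, with reduced coefficients `abar` and
reduced "determinants" `dbar p = φ(p ψ(p))`. -/
structure IsModEigen {M : ℕ} (ψ : DirichletCharacter ℂ M) (h : CuspForm (Gamma1 M) 2)
    {k : Type} [Field k] (φ : Zbar →+* k) (abar dbar : ℕ → k) : Prop where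
  nebentypus : HasNebentypus 2 ψ (⇑h)
  red_coeff : ∀ n : ℕ, Red φ (ModularFormClass.qCoeff h n) (abar n)
  red_det : ∀ p : ℕ, p.Prime → ¬ p ∣ M → Red φ ((p : ℂ) * ψ (p : ZMod M)) (dbar p)
  one : abar 1 = 1
  hecke : ∀ p : ℕ, p.Prime → ¬ p ∣ M → ∀ n : ℕ,
    abar (p * n) + dbar p * (if p ∣ n then abar (n / p) else 0) = abar p * abar n

/-- **DS-2.**  For `ℓ ∤ 2N` and every `φ : ℤ̄ → k`, `char k = ℓ`, the system of `f` modulo `φ`
is the system of a weight-two form on some `Γ₁(M)`, `M` supported on the primes of `N ℓ`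
(`h = ±(f♭ · G_ℓ)`, `G_ℓ` the weight-one Eisenstein series of level `ℓ` and character `ω⁻¹`,
`f♭` the `N`-depletion of `f`). -/
def EisCongrStatement : Prop :=
  ∀ (N : ℕ) [NeZero N] (ε : DirichletCharacter ℂ N) (f : CuspForm (Gamma1 N) 1),
    IsDSEigen N ε f → ∀ ℓ : ℕ, ℓ.Prime → ¬ ℓ ∣ 2 * N →
    ∀ (k : Type) [Field k] [CharP k ℓ] (φ : Zbar →+* k),
    ∃ (M : ℕ) (_ : NeZero M) (ψ : DirichletCharacter ℂ M) (h : CuspForm (Gamma1 M) 2)
      (abar dbar : ℕ → k),
      (∀ p : ℕ, p.Prime → p ∣ M → p ∣ N * ℓ) ∧ IsModEigen ψ h φ abar dbar ∧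
      ∀ p : ℕ, p.Prime → ¬ p ∣ N * ℓ →
        Red φ (ModularFormClass.qCoeff f p) (abar p) ∧ Red φ (ε (p : ZMod N)) (dbar p)

/-! ## DS-3 : P-ES1, Eichler–Shimura for `Γ₁(M)` -/

/-- **DS-3 (= P-ES1).**  A weight-two cusp form on `Γ₁(M)` with nebentypus which is a normalised
eigenform modulo `φ` has a mod `ℓ` Galois representation, unramified outside `M ℓ`, with
characteristic polynomial `X² - ā_p X + φ(p ψ(p))` at Frobenius elements of `p ∤ M ℓ`. -/
def Gamma1ResidualStatement : Prop :=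
  ∀ (M : ℕ) [NeZero M] (ψ : DirichletCharacter ℂ M) (h : CuspForm (Gamma1 M) 2)
    (ℓ : ℕ), ℓ.Prime → ∀ (k : Type) [Field k] [CharP k ℓ] (φ : Zbar →+* k) (abar dbar : ℕ → k),
    IsModEigen ψ h φ abar dbar →
    ∃ ρ : ResidualGaloisRep k, ∀ p : ℕ, p.Prime → ¬ p ∣ M * ℓ →
      ρ.IsUnramifiedAt p ∧
      ∀ A : ValuationSubring (AlgebraicClosure ℚ), A.LiesOverPrime p →
        ∀ σ : GalQ, A.IsFrobeniusAt σ p →
          LinearMap.charpoly (ρ.ρ σ) = X ^ 2 - C (abar p) * X + C (dbar p)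

/-! ## DS-SS : semisimplification -/

/-- A residual representation is semisimple: every stable subspace has a stable complement. -/
def IsSemisimpleRep {k : Type} [Field k] (ρ : ResidualGaloisRep k) : Prop :=
  ∀ W : Submodule k ρ.V, (∀ σ : GalQ, ∀ x ∈ W, ρ.ρ σ x ∈ W) →
    ∃ W' : Submodule k ρ.V, (∀ σ : GalQ, ∀ x ∈ W', ρ.ρ σ x ∈ W') ∧ IsCompl W W'

/-- **DS-SS.**  Every residual representation has a semisimplification: same characteristic
polynomials everywhere, and unramified wherever the original one is. -/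
def SemisimplifyStatement : Prop :=
  ∀ (k : Type) [Field k] (ρ : ResidualGaloisRep k),
    ∃ ρ' : ResidualGaloisRep k, IsSemisimpleRep ρ' ∧
      (∀ σ : GalQ, LinearMap.charpoly (ρ'.ρ σ) = LinearMap.charpoly (ρ.ρ σ)) ∧
      ∀ p : ℕ, ρ.IsUnramifiedAt p → ρ'.IsUnramifiedAt p

/-! ## DS-A : the mod `ℓ` representations of `f` -/

/-- `ρ` is a mod-`φ` representation attached to `(f, ε)` away from `N ℓ`. -/
def IsModLRep (N : ℕ) (ε : DirichletCharacter ℂ N) (f : CuspForm (Gamma1 N) 1) (ℓ : ℕ)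
    {k : Type} [Field k] (φ : Zbar →+* k) (ρ : ResidualGaloisRep k) : Prop :=
  IsSemisimpleRep ρ ∧
  ∀ p : ℕ, p.Prime → ¬ p ∣ N * ℓ →
    ρ.IsUnramifiedAt p ∧
    ∀ A : ValuationSubring (AlgebraicClosure ℚ), A.LiesOverPrime p →
      ∀ σ : GalQ, A.IsFrobeniusAt σ p →
        ∃ a e : k, Red φ (ModularFormClass.qCoeff f p) a ∧ Red φ (ε (p : ZMod N)) e ∧
          LinearMap.charpoly (ρ.ρ σ) = X ^ 2 - C a * X + C e

/-- **DS-A.**  Existence of the mod `ℓ` representations of `f` for all `ℓ ∤ 2N`. -/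
def ModLRepStatement : Prop :=
  ∀ (N : ℕ) [NeZero N] (ε : DirichletCharacter ℂ N) (f : CuspForm (Gamma1 N) 1),
    IsDSEigen N ε f → ∀ ℓ : ℕ, ℓ.Prime → ¬ ℓ ∣ 2 * N →
    ∀ (k : Type) [Field k] [CharP k ℓ] (φ : Zbar →+* k),
    ∃ ρ : ResidualGaloisRep k, IsModLRep N ε f ℓ φ ρ

/-! ## DS-4 : the elementary Rankin bound -/

/-- **DS-4a (Rankin, elementary form).**  `∑_{n ≤ x} |a_n|² = O(x)` for a weight-one cusp form
(Hecke bound `|f(τ)| ≤ C y^{-1/2}` + Parseval on a horizontal line at height `1/x`). -/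
def RankinStatement : Prop :=
  ∀ (N : ℕ) [NeZero N] (f : CuspForm (Gamma1 N) 1),
    ∃ C : ℝ, ∀ x : ℕ, ∑ n ∈ Finset.range (x + 1), ‖ModularFormClass.qCoeff f n‖ ^ 2 ≤ C * x

/-- **DS-4b (Euler product inequality).**  For `f` as in S48 there is `C` with
`∑_{p ∈ P} log (1 + |a_p|² p^{-s}) ≤ log (1/(s-1)) + C` for all `1 < s ≤ 2` and all finite sets
`P` of primes not dividing `N`. -/
def EulerLogStatement : Prop :=
  ∀ (N : ℕ) [NeZero N] (ε : DirichletCharacter ℂ N) (f : CuspForm (Gamma1 N) 1),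
    IsDSEigen N ε f →
    ∃ C : ℝ, ∀ s : ℝ, 1 < s → s ≤ 2 → ∀ P : Finset ℕ, (∀ p ∈ P, p.Prime ∧ ¬ p ∣ N) →
      ∑ p ∈ P, Real.log (1 + ‖ModularFormClass.qCoeff f p‖ ^ 2 * (p : ℝ) ^ (-s))
        ≤ Real.log (1 / (s - 1)) + C

/-- **DS-4c (few values).**  For every `η > 0` there is a finite set `Y` of complex numbers such
that the primes `p ∤ N` with `a_p ∉ Y` have upper Dirichlet density `≤ η`. -/
def FewValuesStatement : Prop :=
  ∀ (N : ℕ) [NeZero N] (ε : DirichletCharacter ℂ N) (f : CuspForm (Gamma1 N) 1),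
    IsDSEigen N ε f → ∀ eta : ℝ, 0 < eta →
    ∃ (Y : Finset ℂ) (C : ℝ), ∀ s : ℝ, 1 < s → s ≤ 2 →
      primeSum (fun p => ¬ p ∣ N ∧ ModularFormClass.qCoeff f p ∉ Y) s
        ≤ eta * Real.log (1 / (s - 1)) + C

/-- **DS-4d (sharp Rankin for bounded eigenvalues).**  If `|a_p| ≤ B` for all `p ∤ N` then
`∑_{p ∤ N} |a_p|² p^{-s} ≤ log (1/(s-1)) + C` for `1 < s ≤ 2`. -/
def RankinSharpStatement : Prop :=
  ∀ (N : ℕ) [NeZero N] (ε : DirichletCharacter ℂ N) (f : CuspForm (Gamma1 N) 1),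
    IsDSEigen N ε f → ∀ B : ℝ, (∀ p : ℕ, p.Prime → ¬ p ∣ N → ‖ModularFormClass.qCoeff f p‖ ≤ B) →
    ∃ C : ℝ, ∀ s : ℝ, 1 < s → s ≤ 2 → ∀ P : Finset ℕ, (∀ p ∈ P, p.Prime ∧ ¬ p ∣ N) →
      ∑ p ∈ P, ‖ModularFormClass.qCoeff f p‖ ^ 2 * (p : ℝ) ^ (-s)
        ≤ Real.log (1 / (s - 1)) + C

/-! ## DS-5 : Chebotarev, density form -/

/-- The primes `p` having a Frobenius element (at some place over `p`) mapping into `C`. -/
def HasFrobIn {G : Type} [Group G] (π : GalQ →* G) (C : Set G) (p : ℕ) : Prop :=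
  ∃ A : ValuationSubring (AlgebraicClosure ℚ), A.LiesOverPrime p ∧
    ∃ σ : GalQ, A.IsFrobeniusAt σ p ∧ π σ ∈ C

/-- **DS-5 (Chebotarev, lower density form; target of P-CHEB phase 2).**  For a finite quotient
`π : G_ℚ ↠ G` (of finite level) and a conjugation-stable `C ⊆ G`, the primes with Frobenius in
`C` have lower Dirichlet density `≥ |C|/|G|`. -/
def ChebDensityStatement : Prop :=
  ∀ (G : Type) [Group G] [Finite G] (π : GalQ →* G), Function.Surjective π →
    GaloisFactorsThroughFiniteLevel π →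
    ∀ C : Set G, (∀ g ∈ C, ∀ h : G, h * g * h⁻¹ ∈ C) →
    ∀ δ : ℝ, 0 < δ → ∃ s₀ : ℝ, 1 < s₀ ∧ ∀ s : ℝ, 1 < s → s < s₀ →
      ((Nat.card C : ℝ) / (Nat.card G : ℝ) - δ) * Real.log (1 / (s - 1))
        ≤ primeSum (HasFrobIn π C) s

/-! ## DS-5b : bounded image (Deligne–Serre, Prop. 7.2) -/

/-- **DS-5b.**  `G` a finite group, `r : G →* GL₂(k)` injective and semisimple, `2 ≠ 0` in `k`,
`H ⊆ G` with `|G ∖ H| ≤ η |G|`, `η < 1/4`, and the traces of `r(h)`, `h ∈ H`, lie in a finite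
set `T`.  Then `(1 - 4η) |G| ≤ max(|T|,1)⁴`. -/
def BoundedImageStatement : Prop :=
  ∀ (k : Type) [Field k], (2 : k) ≠ 0 →
    ∀ (G : Type) [Group G] [Finite G] (V : Type) [AddCommGroup V] [Module k V],
    Module.finrank k V = 2 →
    ∀ (r : G →* Module.End k V), Function.Injective r →
    (∀ W : Submodule k V, (∀ g : G, ∀ x ∈ W, r g x ∈ W) →
      ∃ W' : Submodule k V, (∀ g : G, ∀ x ∈ W', r g x ∈ W') ∧ IsCompl W W') →
    ∀ (H : Set G) (T : Finset k) (eta : ℝ), 0 ≤ eta → eta < 1 / 4 →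
      (Nat.card (Hᶜ : Set G) : ℝ) ≤ eta * Nat.card G →
      (∀ g ∈ H, LinearMap.trace k V (r g) ∈ T) →
      (1 - 4 * eta) * (Nat.card G : ℝ) ≤ (max T.card 1 : ℕ) ^ 4

/-! ## DS-C : bounded order -/

/-- **DS-C.**  The images of all the mod `ℓ` representations of `f` have bounded order. -/
def BoundedOrderStatement : Prop :=
  ∀ (N : ℕ) [NeZero N] (ε : DirichletCharacter ℂ N) (f : CuspForm (Gamma1 N) 1),
    IsDSEigen N ε f →
    ∃ B : ℕ, ∀ ℓ : ℕ, ℓ.Prime → ¬ ℓ ∣ 2 * N →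
      ∀ (k : Type) [Field k] [CharP k ℓ] (φ : Zbar →+* k) (ρ : ResidualGaloisRep k),
        IsModLRep N ε f ℓ φ ρ → Nat.card (Set.range ρ.ρ) ≤ B

/-! ## DS-6 : lifting to characteristic zero -/

/-- **DS-6.**  A two-dimensional representation over a field of characteristic `ℓ` of a finite
group of order prime to `ℓ` lifts to `ℂ`, compatibly with `φ : ℤ̄ → k` on traces and
determinants. -/
def LiftStatement : Prop :=
  ∀ (ℓ : ℕ), ℓ.Prime → ∀ (k : Type) [Field k] [CharP k ℓ] (φ : Zbar →+* k)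
    (G : Type) [Group G] [Finite G], ¬ ℓ ∣ Nat.card G →
    ∀ (V : Type) [AddCommGroup V] [Module k V], Module.finrank k V = 2 →
    ∀ (r : G →* Module.End k V),
    ∃ R : G →* GL (Fin 2) ℂ, ∀ g : G,
      Red φ ((R g : Matrix (Fin 2) (Fin 2) ℂ).trace) (LinearMap.trace k V (r g)) ∧
      Red φ ((R g : Matrix (Fin 2) (Fin 2) ℂ).det) (LinearMap.det (r g))

/-! ## DS-D, DS-E : the complex representation -/

/-- `ρ` is a complex representation attached to `(f, ε)` : finite image, unramified outside `N`,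
trace `a_p` and determinant `ε(p)` at Frobenius elements. -/
def IsAttachedComplexRep (N : ℕ) (ε : DirichletCharacter ℂ N) (f : CuspForm (Gamma1 N) 1)
    (ρ : GalQ →* GL (Fin 2) ℂ) : Prop :=
  GaloisFactorsThroughFiniteLevel ρ ∧
  ∀ p : ℕ, p.Prime → ¬ p ∣ N →
    ∀ A : ValuationSubring (AlgebraicClosure ℚ), A.LiesOverPrime p →
      (∀ σ ∈ A.inertiaSubgroupIn ℚ, ρ σ = 1) ∧
      ∀ σ : GalQ, A.IsFrobeniusAt σ p →
        ((ρ σ : GL (Fin 2) ℂ) : Matrix (Fin 2) (Fin 2) ℂ).trace = ModularFormClass.qCoeff f p ∧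
        ((ρ σ : GL (Fin 2) ℂ) : Matrix (Fin 2) (Fin 2) ℂ).det = ε (p : ZMod N)

/-- **DS-D.**  Existence of the complex representation (S48 without irreducibility). -/
def ComplexRepStatement : Prop :=
  ∀ (N : ℕ) [NeZero N] (ε : DirichletCharacter ℂ N) (f : CuspForm (Gamma1 N) 1),
    IsDSEigen N ε f → ∃ ρ : GalQ →* GL (Fin 2) ℂ, IsAttachedComplexRep N ε f ρ

/-- **DS-E.**  Every complex representation attached to `f` is irreducible. -/
def IrredStatement : Prop :=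
  ∀ (N : ℕ) [NeZero N] (ε : DirichletCharacter ℂ N) (f : CuspForm (Gamma1 N) 1),
    IsDSEigen N ε f → ∀ ρ : GalQ →* GL (Fin 2) ℂ, IsAttachedComplexRep N ε f ρ →
      (Deformation.matrixRepresentation ρ).IsIrreducible

/-- The statement of S48. -/
def S48Statement : Prop :=
  ∀ (N : ℕ) [NeZero N] (ε : DirichletCharacter ℂ N) (f : CuspForm (Gamma1 N) 1),
    ModularFormClass.qCoeff f 1 = 1 →
    (∀ p : ℕ, p.Prime → ¬ p ∣ N → ∀ n : ℕ,
      ModularFormClass.qCoeff f (p * n) +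
          ε (p : ZMod N) * (if p ∣ n then ModularFormClass.qCoeff f (n / p) else 0) =
        ModularFormClass.qCoeff f p * ModularFormClass.qCoeff f n) →
    ∃ ρ : GalQ →* GL (Fin 2) ℂ, GaloisFactorsThroughFiniteLevel ρ ∧
      (Deformation.matrixRepresentation ρ).IsIrreducible ∧
      ∀ p : ℕ, p.Prime → ¬ p ∣ N →
        ∀ A : ValuationSubring (AlgebraicClosure ℚ), A.LiesOverPrime p →
          (∀ σ ∈ A.inertiaSubgroupIn ℚ, ρ σ = 1) ∧
          ∀ σ : GalQ, A.IsFrobeniusAt σ p →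
            ((ρ σ : GL (Fin 2) ℂ) : Matrix (Fin 2) (Fin 2) ℂ).trace = ModularFormClass.qCoeff f p ∧
            ((ρ σ : GL (Fin 2) ℂ) : Matrix (Fin 2) (Fin 2) ℂ).det = ε (p : ZMod N)

/-- Top-level glue: S48 from DS-D and DS-E. -/
theorem s48_of_complexRep_irred (hD : ComplexRepStatement) (hE : IrredStatement) :
    S48Statement := by
  intro N _ ε f h1 hT
  obtain ⟨ρ, hρ⟩ := hD N ε f ⟨h1, hT⟩
  exact ⟨ρ, hρ.1, hE N ε f ⟨h1, hT⟩ ρ hρ, hρ.2⟩

/-- Glue for DS-A: DS-2 + DS-3 + DS-SS give the mod `ℓ` representations. -/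
theorem modLRep_of_parts (h2 : EisCongrStatement) (h3 : Gamma1ResidualStatement)
    (hS : SemisimplifyStatement) : ModLRepStatement := by
  intro N _ ε f hf ℓ hℓ hℓN k _ _ φ
  obtain ⟨M, hM, ψ, h, abar, dbar, hMN, hmod, hred⟩ := h2 N ε f hf ℓ hℓ hℓN k φ
  obtain ⟨ρ, hρ⟩ := h3 M ψ h ℓ hℓ k φ abar dbar hmod
  obtain ⟨ρ', hss, hchar, hunr⟩ := hS k ρ
  refine ⟨ρ', hss, fun p hp hpN => ?_⟩
  have hpM : ¬ p ∣ M * ℓ := by
    intro hdiv
    rcases (Nat.Prime.dvd_mul hp).1 hdiv with h' | h'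
    · exact hpN (hMN p hp h')
    · exact hpN (Dvd.dvd.mul_left h' N)
  obtain ⟨hu, hF⟩ := hρ p hp hpM
  refine ⟨hunr p hu, fun A hA σ hσ => ?_⟩
  obtain ⟨ha, he⟩ := hred p hp hpN
  exact ⟨abar p, dbar p, ha, he, by rw [hchar σ, hF A hA σ hσ]⟩

end Fermat.Agent.H20.DS
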