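import Mathlib
import Fermat.Agent.H20.DS.Interfaces
import Fermat.Agent.H69.DSBoundedImage
import Fermat.Agent.H74.DSAdapterLin

/-!
# P-DS, block DS-5b in the interface shape (helper20)

`boundedImage : BoundedImageStatement`, from helper69's `card_le_of_trace_mem` (matrix form of
Deligne–Serre's Proposition 7.2) and helper74's matrix adapters.
-/

set_option autoImplicit false

noncomputable section

namespace Fermat.Agent.H20.DS

/-- **DS-5b**, unconditional. -/
theorem boundedImage : BoundedImageStatement := by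
  classical
  intro k _ h2 G _ _ V _ _ hrank r hinj hss H T eta _ _ hH hT
  haveI : Module.Finite k V := Module.finite_of_finrank_eq_succ hrank
  let b : Module.Basis (Fin 2) k V := Module.finBasisOfFinrankEq k V hrank
  have hinj' : Function.Injective (Fermat.Agent.H74.DS.matMonoidHom b r) := by
    intro x y hxy
    apply hinj
    rw [Fermat.Agent.H74.DS.matMonoidHom_apply, Fermat.Agent.H74.DS.matMonoidHom_apply] at hxy
    exact (LinearMap.toMatrix b b).injective hxy
  have hss' := Fermat.Agent.H74.DS.isSemisimpleRep_matMonoidHom b r hss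
  have hT' : ∀ h ∈ H, (Fermat.Agent.H74.DS.matMonoidHom b r h).trace ∈ T := by
    intro h hh
    rw [Fermat.Agent.H74.DS.matMonoidHom_apply, ← LinearMap.trace_eq_matrix_trace k b (r h)]
    exact hT h hh
  have h1 := Fermat.Agent.H69.DS.card_le_of_trace_mem
    (Fermat.Agent.H74.DS.matMonoidHom b r) h2 hinj' hss' H T hT'
  have h2' : ((Hᶜ : Set G).ncard : ℝ) = (Nat.card (Hᶜ : Set G) : ℝ) := by
    rw [Nat.card_coe_set_eq]
  have h3 : (Nat.card G : ℝ) ≤ 4 * ((Hᶜ : Set G).ncard : ℝ) + (T.card : ℝ) ^ 4 := by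
    exact_mod_cast h1
  have h4 : (T.card : ℝ) ^ 4 ≤ ((max T.card 1 : ℕ) : ℝ) ^ 4 := by
    have : (T.card : ℝ) ≤ ((max T.card 1 : ℕ) : ℝ) := by exact_mod_cast le_max_left _ _
    exact pow_le_pow_left₀ (Nat.cast_nonneg _) this 4
  rw [h2'] at h3
  push_cast at h4 ⊢
  nlinarith

end Fermat.Agent.H20.DS
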