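import Mathlib
import Fermat.Agent.H20.DS.Interfaces

/-!
# P-DS, block DS-C : the images of the mod `ℓ` representations are bounded (helper20)

`boundedOrder_of_parts : FewValuesStatement → ChebDensityStatement → BoundedImageStatement →
  BoundedOrderStatement`.
-/

set_option autoImplicit false

noncomputable section

open Polynomial

namespace Fermat.Agent.H20.DS

/-! ### linear algebra -/

/-- In dimension two the trace is read off from the characteristic polynomial. -/
lemma dsc_trace_of_charpoly {k V : Type} [Field k] [AddCommGroup V] [Module k V]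
    [Module.Finite k V] (h2 : Module.finrank k V = 2) (u : Module.End k V) (a e : k)
    (h : LinearMap.charpoly u = X ^ 2 - C a * X + C e) : LinearMap.trace k V u = a := by
  let b : Module.Basis (Fin 2) k V := Module.finBasisOfFinrankEq k V h2
  have h1 : (LinearMap.toMatrix b b u).charpoly = X ^ 2 - C a * X + C e := by
    rw [LinearMap.charpoly_toMatrix]; exact h
  rw [Matrix.charpoly_fin_two] at h1
  rw [LinearMap.trace_eq_matrix_trace k b u]
  have := congrArg (fun p : k[X] => p.coeff 1) h1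
  simp only [coeff_add, coeff_sub, coeff_X_pow, coeff_C_mul, coeff_X_one, coeff_C] at this
  norm_num at this
  exact this

/-! ### prime sums -/

lemma dsc_summable (P : ℕ → Prop) {s : ℝ} (hs : 1 < s) :
    Summable (fun p : ℕ => Set.indicator {p : ℕ | p.Prime ∧ P p}
      (fun p : ℕ => (p : ℝ) ^ (-s)) p) := by
  have h0 : Summable (fun p : ℕ => (p : ℝ) ^ (-s)) :=
    Real.summable_nat_rpow.mpr (by linarith)
  exact h0.indicator _

lemma dsc_term_nonneg (p : ℕ) (s : ℝ) : 0 ≤ (p : ℝ) ^ (-s) :=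
  Real.rpow_nonneg (Nat.cast_nonneg p) _

lemma dsc_term_le_one {p : ℕ} (hp : p.Prime) {s : ℝ} (hs : 1 < s) : (p : ℝ) ^ (-s) ≤ 1 := by
  have h1 : (1 : ℝ) ≤ p := by exact_mod_cast hp.one_lt.le
  exact Real.rpow_le_one_of_one_le_of_nonpos h1 (by linarith)

/-- Comparison of prime sums up to a finite exceptional set. -/
lemma dsc_primeSum_le (P Q : ℕ → Prop) (F : Finset ℕ)
    (h : ∀ p : ℕ, p.Prime → P p → Q p ∨ p ∈ F) {s : ℝ} (hs : 1 < s) :
    primeSum P s ≤ primeSum Q s + F.card := by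
  classical
  unfold primeSum
  set t : ℕ → ℝ := fun p => (p : ℝ) ^ (-s)
  set g : ℕ → ℝ := fun p => if p ∈ F ∧ p.Prime then t p else 0 with hg
  have hgsum : Summable g := by
    refine summable_of_ne_finset_zero (s := F) fun p hp => ?_
    simp [hg, hp]
  have hle : ∀ p, Set.indicator {p : ℕ | p.Prime ∧ P p} t p ≤
      Set.indicator {p : ℕ | p.Prime ∧ Q p} t p + g p := by
    intro p
    by_cases hP : p.Prime ∧ P p
    · rw [Set.indicator_of_mem (show p ∈ {p : ℕ | p.Prime ∧ P p} from hP)]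
      rcases h p hP.1 hP.2 with hQ | hF
      · rw [Set.indicator_of_mem (show p ∈ {p : ℕ | p.Prime ∧ Q p} from ⟨hP.1, hQ⟩)]
        have : 0 ≤ g p := by
          simp only [hg]; split_ifs
          · exact dsc_term_nonneg p s
          · exact le_rfl
        linarith
      · have hgp : g p = t p := by simp [hg, hF, hP.1]
        rw [hgp]
        have : 0 ≤ Set.indicator {p : ℕ | p.Prime ∧ Q p} t p :=
          Set.indicator_nonneg (fun q _ => dsc_term_nonneg q s) p
        linarith
    · rw [Set.indicator_of_notMem (show p ∉ {p : ℕ | p.Prime ∧ P p} from hP)]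
      have h1 : 0 ≤ Set.indicator {p : ℕ | p.Prime ∧ Q p} t p :=
        Set.indicator_nonneg (fun q _ => dsc_term_nonneg q s) p
      have h2 : 0 ≤ g p := by
        simp only [hg]; split_ifs
        · exact dsc_term_nonneg p s
        · exact le_rfl
      linarith
  have h1 := (dsc_summable P hs).tsum_le_tsum hle ((dsc_summable Q hs).add hgsum)
  rw [(dsc_summable Q hs).tsum_add hgsum] at h1
  have h2 : ∑' p, g p ≤ F.card := by
    rw [tsum_eq_sum (s := F) (fun p hp => by simp [hg, hp])]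
    calc ∑ p ∈ F, g p ≤ ∑ _p ∈ F, (1 : ℝ) := by
          refine Finset.sum_le_sum fun p _ => ?_
          simp only [hg]; split_ifs with hh
          · exact dsc_term_le_one hh.2 hs
          · exact zero_le_one
      _ = F.card := by simp
  linarith


/-! ### the analytic step -/

/-- If `δ · log (1/(s-1)) ≤ K` for all `s` close to `1`, then `δ ≤ 0`. -/
lemma dsc_log_unbounded (δ K s₀ : ℝ) (hs₀ : 1 < s₀)
    (h : ∀ s : ℝ, 1 < s → s < s₀ → s ≤ 2 → δ * Real.log (1 / (s - 1)) ≤ K) : δ ≤ 0 := by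
  by_contra hδ
  rw [not_le] at hδ
  set M : ℝ := K / δ + 1 with hM
  set u : ℝ := min (Real.exp (-M)) (min ((s₀ - 1) / 2) (1 / 2)) with hu
  have hu0 : 0 < u := by
    refine lt_min (Real.exp_pos _) (lt_min (by linarith) (by norm_num))
  have hu1 : u ≤ Real.exp (-M) := min_le_left _ _
  have hu2 : u ≤ (s₀ - 1) / 2 := le_trans (min_le_right _ _) (min_le_left _ _)
  have hu3 : u ≤ 1 / 2 := le_trans (min_le_right _ _) (min_le_right _ _)
  have hh := h (1 + u) (by linarith) (by linarith) (by linarith)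
  have hlog : M ≤ Real.log (1 / (1 + u - 1)) := by
    rw [show (1 : ℝ) + u - 1 = u by ring, one_div, Real.log_inv]
    have : Real.log u ≤ -M := (Real.log_le_iff_le_exp hu0).mpr hu1
    linarith
  have h1 : δ * M ≤ δ * Real.log (1 / (1 + u - 1)) := mul_le_mul_of_nonneg_left hlog hδ.le
  have h2 : δ * M = K + δ := by
    rw [hM]; field_simp
  linarith

/-! ### DS-C -/

/-- **DS-C.**  Bounded order of the images of the mod `ℓ` representations, from the "few values"
bound, Chebotarev's density theorem and Deligne–Serre's Proposition 7.2. -/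
theorem boundedOrder_of_parts (hF : FewValuesStatement) (hC : ChebDensityStatement)
    (hB : BoundedImageStatement) : BoundedOrderStatement := by
  classical
  intro N _ ε f hf
  obtain ⟨Y, C₀, hY⟩ := hF N ε f hf (1 / 8) (by norm_num)
  refine ⟨2 * (max Y.card 1) ^ 4, ?_⟩
  intro ℓ hℓ hℓN k _ _ φ ρ hρ
  obtain ⟨hss, hρ'⟩ := hρ
  -- the finite group `G`
  set ρu : GalQ →* (Module.End k ρ.V)ˣ := ρ.ρ.toHomUnits with hρu
  let G : Subgroup (Module.End k ρ.V)ˣ := ρu.range
  let π : GalQ →* G := ρu.rangeRestrict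
  have hπs : Function.Surjective π := ρu.rangeRestrict_surjective
  let r : G →* Module.End k ρ.V := (Units.coeHom _).comp G.subtype
  have hrπ : ∀ σ : GalQ, r (π σ) = ρ.ρ σ := fun σ => rfl
  have hrinj : Function.Injective r := by
    intro x y hxy
    exact Subtype.ext (Units.ext hxy)
  -- cardinalities
  have hcard : Nat.card (Set.range ρ.ρ) = Nat.card G := by
    refine (Nat.card_congr (Equiv.ofBijective
      (fun g : G => (⟨r g, by
        obtain ⟨σ, hσ⟩ := hπs g
        exact ⟨σ, by rw [← hσ, hrπ]⟩⟩ : Set.range ρ.ρ)) ⟨?_, ?_⟩)).symm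
    · intro x y hxy
      exact hrinj (congrArg Subtype.val hxy)
    · rintro ⟨_, σ, rfl⟩
      exact ⟨π σ, rfl⟩
  rw [hcard]
  by_cases hfin : Finite G
  swap
  · rw [not_finite_iff_infinite] at hfin
    rw [Nat.card_eq_zero_of_infinite]
    exact Nat.zero_le _
  have hGpos : 0 < (Nat.card G : ℝ) := by exact_mod_cast Nat.card_pos
  -- finite level
  have hfl : GaloisFactorsThroughFiniteLevel π := by
    obtain ⟨L, hL, h1⟩ := ρ.factorsThroughFiniteLevel
    refine ⟨L, hL, fun σ hσ => ?_⟩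
    apply hrinj
    rw [hrπ, h1 σ hσ, map_one]
  -- the reduced set of values
  let T : Finset k := Y.image (fun x : ℂ => if h : IsIntegral ℤ x then φ ⟨x, h⟩ else 0)
  have hTcard : T.card ≤ Y.card := Finset.card_image_le
  let H : Set G := {g : G | LinearMap.trace k ρ.V (r g) ∈ T}
  have hconj : ∀ g ∈ (Hᶜ : Set G), ∀ h : G, h * g * h⁻¹ ∈ (Hᶜ : Set G) := by
    intro g hg h
    simp only [H, Set.mem_compl_iff, Set.mem_setOf_eq] at hg ⊢
    intro hc
    apply hg
    have h1 : r (h * g * h⁻¹) = r h * r g * r h⁻¹ := by rw [map_mul, map_mul]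
    have h2 : r h⁻¹ * r h = 1 := by rw [← map_mul, inv_mul_cancel, map_one]
    have h3 : LinearMap.trace k ρ.V (r h * r g * r h⁻¹) = LinearMap.trace k ρ.V (r g) := by
      rw [LinearMap.trace_mul_comm, ← mul_assoc, h2, one_mul]
    rwa [h1, h3] at hc
  -- primes with Frobenius outside `H`
  have hprimes : ∀ p : ℕ, p.Prime → HasFrobIn π (Hᶜ : Set G) p →
      (¬ p ∣ N ∧ ModularFormClass.qCoeff f p ∉ Y) ∨ p ∈ (N * ℓ).primeFactors := by
    intro p hp ⟨A, hA, σ, hσ, hπσ⟩
    by_cases hpN : p ∣ N * ℓ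
    · right
      rw [Nat.mem_primeFactors]
      exact ⟨hp, hpN, Nat.mul_ne_zero (NeZero.ne N) hℓ.ne_zero⟩
    · left
      have hpN' : ¬ p ∣ N := fun h => hpN (Dvd.dvd.mul_right h ℓ)
      refine ⟨hpN', fun hmem => ?_⟩
      obtain ⟨a, e, ⟨z, hz, hφz⟩, -, hchar⟩ := (hρ' p hp hpN).2 A hA σ hσ
      have htr : LinearMap.trace k ρ.V (ρ.ρ σ) = a :=
        dsc_trace_of_charpoly ρ.finrank_eq _ a e hchar
      apply hπσ
      show LinearMap.trace k ρ.V (r (π σ)) ∈ T
      rw [hrπ, htr]
      refine Finset.mem_image.mpr ⟨ModularFormClass.qCoeff f p, hmem, ?_⟩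
      have hint : IsIntegral ℤ (ModularFormClass.qCoeff f p) := hz ▸ z.2
      rw [dif_pos hint, ← hφz]
      congr 1
      exact Subtype.ext hz.symm
  -- density of the complement of `H`
  have hdens : (Nat.card (Hᶜ : Set G) : ℝ) ≤ 1 / 8 * Nat.card G := by
    by_contra hcon
    rw [not_le] at hcon
    set c₁ : ℝ := (Nat.card (Hᶜ : Set G) : ℝ) / (Nat.card G : ℝ) with hc₁
    have hc₁' : 1 / 8 < c₁ := by
      rw [hc₁, lt_div_iff₀ hGpos]; exact hcon
    set δ : ℝ := (c₁ - 1 / 8) / 2 with hδ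
    have hδ0 : 0 < δ := by rw [hδ]; linarith
    obtain ⟨s₀, hs₀, hs⟩ := hC G π hπs hfl (Hᶜ : Set G) hconj δ hδ0
    have key : δ ≤ 0 := by
      refine dsc_log_unbounded δ (C₀ + ((N * ℓ).primeFactors.card : ℝ)) s₀ hs₀ ?_
      intro s hs1 hs2 hs3
      have h1 := hs s hs1 hs2
      have h2 := dsc_primeSum_le (HasFrobIn π (Hᶜ : Set G))
        (fun p => ¬ p ∣ N ∧ ModularFormClass.qCoeff f p ∉ Y) (N * ℓ).primeFactors hprimes hs1
      have h3 := hY s hs1 hs3
      have h4 : (c₁ - δ) * Real.log (1 / (s - 1)) =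
          δ * Real.log (1 / (s - 1)) + 1 / 8 * Real.log (1 / (s - 1)) := by
        rw [hδ]; ring
      linarith
    linarith
  -- Deligne–Serre, Proposition 7.2
  have h2k : (2 : k) ≠ 0 := by
    intro h2
    have h2' : ((2 : ℕ) : k) = 0 := by exact_mod_cast h2
    rw [CharP.cast_eq_zero_iff k ℓ] at h2'
    exact hℓN (Dvd.dvd.mul_right h2' N)
  have hss' : ∀ W : Submodule k ρ.V, (∀ g : G, ∀ x ∈ W, r g x ∈ W) →
      ∃ W' : Submodule k ρ.V, (∀ g : G, ∀ x ∈ W', r g x ∈ W') ∧ IsCompl W W' := by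
    intro W hW
    obtain ⟨W', hW', hc⟩ := hss W (fun σ x hx => hW (π σ) x hx)
    refine ⟨W', fun g x hx => ?_, hc⟩
    obtain ⟨σ, rfl⟩ := hπs g
    exact hW' σ x hx
  have hmain := hB k h2k G ρ.V ρ.finrank_eq r hrinj hss' H T (1 / 8) (by norm_num) (by norm_num)
    hdens (fun g hg => hg)
  have hT1 : ((max T.card 1 : ℕ) : ℝ) ^ 4 ≤ ((max Y.card 1 : ℕ) : ℝ) ^ 4 := by
    have : max T.card 1 ≤ max Y.card 1 := max_le_max hTcard le_rfl
    have : ((max T.card 1 : ℕ) : ℝ) ≤ ((max Y.card 1 : ℕ) : ℝ) := by exact_mod_cast this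
    exact pow_le_pow_left₀ (Nat.cast_nonneg _) this 4
  have hfinal : (Nat.card G : ℝ) ≤ ((2 * (max Y.card 1) ^ 4 : ℕ) : ℝ) := by
    push_cast
    push_cast at hmain hT1
    linarith
  exact_mod_cast hfinal

end Fermat.Agent.H20.DS
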