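import Mathlib
import Fermat.Agent.H20.DS.Interfaces
import Fermat.Agent.H20.DS.BoundedOrder
import Fermat.Agent.H20.DS.BoundedImage
import Fermat.Agent.H44.DS.EulerLog
import Fermat.Agent.H58.DS.FewValues
import Fermat.Agent.H62.Cheb2.Final
import Fermat.Agent.H74.DSFinal
import Fermat.Agent.H77.DsSemisimplify
import Fermat.Agent.H98.DS.EisCongrFinal

/-!
# P-DS (S48) : assembly of the landed blocks (helper20)

S48 is reduced to the four statements

* `NebentypusStatement`      (DS-0),
* `IntegralStatement`, `FiniteConjStatement` (block (1)),
* `Gamma1ResidualStatement`  (DS-3 = P-ES1).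
-/

set_option autoImplicit false

namespace Fermat.Agent.H20.DS

/-- DS-4c, with the Euler product bound plugged in. -/
theorem fewValues_of_two (hF : FiniteConjStatement) (hI : IntegralStatement) :
    FewValuesStatement :=
  Fermat.Agent.H58.fewValues_of_parts Fermat.Agent.H44.ds_eulerLogStatement hF hI

/-- DS-C, with Chebotarev and the bounded-image proposition plugged in. -/
theorem boundedOrder_of_two (hF : FiniteConjStatement) (hI : IntegralStatement) :
    BoundedOrderStatement :=
  boundedOrder_of_parts (fewValues_of_two hF hI) Fermat.Agent.H62.Cheb2.Final.chebDensityDS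
    boundedImage

/-- DS-A, with the Eisenstein congruence and the semisimplification plugged in. -/
theorem modLRep_of_three (h0 : NebentypusStatement) (hI : IntegralStatement)
    (h3 : Gamma1ResidualStatement) : ModLRepStatement :=
  modLRep_of_parts (Fermat.Agent.H98.DS.eisCongr h0 hI) h3 Fermat.Agent.H77.dss_semisimplify

/-- **S48 from the four remaining inputs.** -/
theorem s48_of_remaining (h0 : NebentypusStatement) (hI : IntegralStatement)
    (hF : FiniteConjStatement) (h3 : Gamma1ResidualStatement) : S48Statement :=
  Fermat.Agent.H74.DS.s48_of_four (modLRep_of_three h0 hI h3) (boundedOrder_of_two hF hI)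
    Fermat.Agent.H44.ds_rankinSharpStatement Fermat.Agent.H62.Cheb2.Final.chebDensityDS

end Fermat.Agent.H20.DS
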