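import Mathlib
import Fermat.Agent.H20.DS.Interfaces

/-!
# P-DS block (1) : arithmetic of `S_k(Γ₁(N))` — interfaces (helper20)

Route = port of P-INT (`Fermat.Agent.H22.TheoremA`, `Fermat.Agent.H22.Main`) to `Γ₁(N)`,
**relative to `Γ₀(N)`**: the rôle of the level-one forms is played by the cusp forms on `Γ₀(N)`
(for which Theorem A `Fermat.Agent.H22.exists_conj` and the integral structure
`Fermat.Agent.H22.hasIntegralStructure` are landed), the rôle of the separating form by the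
weight-one Eisenstein series with integral `q`-expansion
`t = (N - 2) + 2N ∑ₙ (∑_{d ∣ n} [d ≡ 1] - [d ≡ -1]) qⁿ`
(a rational combination of the landed forms `φ_a` of `Fermat.Agent.H44.phiForm`).

* B1-U      `SepOneStatement`
* B1-INTERP `RelInterpStatement`, `FinDimGamma1Statement`
* B1-CHAR   `RelCharpolyStatement`
* B1-DIV    `DivisionOneStatement`
* B1-A      `ConjGamma1Statement`        (Theorem A for `Γ₁(N)`)
* B1-INT    `IntStructGamma1Statement`   (integral structure for `Γ₁(N)`)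
* B1-ALG    `IntegralStatement`, `FiniteConjStatement` (in `Interfaces.lean`)
-/

set_option autoImplicit false

noncomputable section

open UpperHalfPlane ModularForm CongruenceSubgroup
open scoped MatrixGroups ModularForm Manifold

namespace Fermat.Agent.H20.DS

/-- **B1-U.**  For `N ≥ 3` there is a weight-one modular form on `Γ₁(N)` with integral
`q`-expansion whose stabiliser in `Γ₀(N)` is exactly `Γ₁(N)`. -/
def SepOneStatement : Prop :=
  ∀ (N : ℕ) [NeZero N], 3 ≤ N →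
    ∃ t : ModularForm (Gamma1 N) 1,
      (∀ n, ∃ m : ℤ, PowerSeries.coeff n (qExpansion 1 t) = (m : ℂ)) ∧
      ∀ γ : SL(2, ℤ), γ ∈ Gamma0 N → (⇑t ∣[(1 : ℤ)] γ = ⇑t) → γ ∈ Gamma1 N

/-- **B1-INTERP.**  Relative Lagrange interpolation for `Γ₁(N) ⊆ Γ₀(N)`: for a form `t` of weight
`w` on `Γ₁(N)` whose stabiliser in `Γ₀(N)` is `Γ₁(N)` there are `μ` and a function `D ≠ 0` such
that `f D` is, for every modular form `f` on `Γ₁(N)`, a polynomial of degree `< μ` in `t` whose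
coefficients are CUSP forms on `Γ₀(N)` (`D = Δ · ∏_{d ≠ 1} (t - t ∣ ⟨d⟩)`, `Δ` the discriminant;
apply the statement to `f = 1` to see that `D` itself is such a polynomial). -/
def RelInterpStatement : Prop :=
  ∀ (N : ℕ) [NeZero N] (w : ℤ) (t : ModularForm (Gamma1 N) w),
    (∀ γ : SL(2, ℤ), γ ∈ Gamma0 N → (⇑t ∣[w] γ = ⇑t) → γ ∈ Gamma1 N) →
    ∃ (μ : ℕ) (D : ℍ → ℂ), 0 < μ ∧ D ≠ 0 ∧
      ∀ (k : ℤ) (f : ModularForm (Gamma1 N) k),
        ∃ ℓ : ℕ → ℍ → ℂ,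
          (∀ m < μ, ∃ g : CuspForm (Gamma0 N) (k + 12 + w * ((μ : ℤ) - 1 - (m : ℤ))),
            ⇑g = ℓ m) ∧
          ⇑f * D = ∑ m ∈ Finset.range μ, ℓ m * (⇑t) ^ m

/-- **B1-INTERP'.**  `S_k(Γ₁(N))` is finite-dimensional (e.g. the traces
`f ↦ Tr_{Γ₁(N)}^{Γ₀(N)} (f tʲ)`, `j < μ`, are jointly injective; or Sturm via the relative norm). -/
def FinDimGamma1Statement : Prop :=
  ∀ (N : ℕ) [NeZero N] (k : ℤ), FiniteDimensional ℂ (CuspForm (Gamma1 N) k)

/-- **B1-CHAR.**  A cusp form on `Γ₁(N)` is a root of a monic polynomial whose coefficients are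
cusp forms on `Γ₀(N)` (the characteristic polynomial `∏_d (X - f ∣ ⟨d⟩)`). -/
def RelCharpolyStatement : Prop :=
  ∀ (N : ℕ) [NeZero N] (k : ℤ) (f : CuspForm (Gamma1 N) k),
    ∃ (μ : ℕ) (c : ℕ → ℍ → ℂ), 0 < μ ∧
      (∀ i < μ, ∃ g : CuspForm (Gamma0 N) (k * ((μ : ℤ) - (i : ℤ))), ⇑g = c i) ∧
      (⇑f) ^ μ + ∑ i ∈ Finset.range μ, c i * (⇑f) ^ i = 0

/-- **B1-DIV.**  Holomorphic division on `Γ₁(N)`: if `Q / P` satisfies a monic equation whose
lower coefficients are cusp forms on `Γ₀(N)`, then `Q / P` is a cusp form on `Γ₁(N)`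
(port of `Fermat.Agent.H33.exists_cuspForm_of_integral`). -/
def DivisionOneStatement : Prop :=
  ∀ (N : ℕ) [NeZero N] (k w : ℤ)
    (P : ModularForm (Gamma1 N) w) (Q : ModularForm (Gamma1 N) (w + k)), P ≠ 0 →
    ∀ (μ : ℕ), 0 < μ → ∀ c : ℕ → ℍ → ℂ,
    (∀ i < μ, ∃ g : CuspForm (Gamma0 N) (k * ((μ : ℤ) - (i : ℤ))), ⇑g = c i) →
    (⇑Q) ^ μ + ∑ i ∈ Finset.range μ, c i * (⇑Q) ^ i * (⇑P) ^ (μ - i) = 0 →
    ∃ h : CuspForm (Gamma1 N) k, ∀ z, h z * P z = Q z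

/-- **B1-A (Theorem A for `Γ₁(N)`).**  `q`-expansions of cusp forms on `Γ₁(N)`, `N ≥ 3`, are
stable under every ring endomorphism of `ℂ`. -/
def ConjGamma1Statement : Prop :=
  ∀ (N : ℕ) [NeZero N], 3 ≤ N → ∀ (k : ℤ) (σ : ℂ →+* ℂ) (f : CuspForm (Gamma1 N) k),
    ∃ g : CuspForm (Gamma1 N) k, qExpansion 1 g = PowerSeries.map σ (qExpansion 1 f)

/-- **B1-INT (integral structure for `Γ₁(N)`).**  `S_k(Γ₁(N))`, `N ≥ 3`, is spanned by finitely
many forms with integral `q`-expansion. -/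
def IntStructGamma1Statement : Prop :=
  ∀ (N : ℕ) [NeZero N], 3 ≤ N → ∀ (k : ℤ),
    ∃ (r : ℕ) (b : Fin r → CuspForm (Gamma1 N) k),
      (∀ i n, ∃ m : ℤ, PowerSeries.coeff n (qExpansion 1 (b i)) = (m : ℂ)) ∧
      Submodule.span ℂ (Set.range b) = ⊤

end Fermat.Agent.H20.DS
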