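import Mathlib
import Fermat.Agent.H20.DS.Assembly
import Fermat.Agent.H20.DS.Interfaces2
import Fermat.Agent.H7.DS.Nebentypus
import Fermat.Agent.H6.DS.ConjFinal
import Fermat.Agent.H96.DS.SepOne
import Fermat.Agent.H33.DS.RelInterp
import Fermat.Agent.H33.DS.FinDimGamma1
import Fermat.Agent.H47.DS.RelCharpoly
import Fermat.Agent.H73.DSDivisionOne
import Fermat.Agent.H5.DS.ConjStatement
import Fermat.Agent.H30.DS.IntStructGamma1
import Fermat.Agent.H69.DS1Integral
import Fermat.Agent.H69.DS1FiniteConj

/-!
# P-DS (S48) : assembly, second stage (helper20)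

Blocks DS-0 and (1) are now unconditional; S48 is reduced to the single statement
`Gamma1ResidualStatement` (DS-3 = P-ES1).
-/

set_option autoImplicit false

namespace Fermat.Agent.H20.DS

/-- Theorem A for `Γ₁(N)`, unconditional. -/
theorem conjGamma1_uncond : ConjGamma1Statement :=
  Fermat.Agent.H5.DS.conjGamma1 Fermat.Agent.H96.DS.sepOne Fermat.Agent.H33.DS.relInterp
    Fermat.Agent.H47.DS.relCharpoly Fermat.Agent.H73.DSDiv.divisionOne

/-- The integral structure of `S_k(Γ₁(N))`, unconditional. -/
theorem intStructGamma1_uncond : IntStructGamma1Statement :=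
  Fermat.Agent.H30.DS.intStructGamma1 conjGamma1_uncond Fermat.Agent.H96.DS.sepOne
    Fermat.Agent.H33.DS.relInterp Fermat.Agent.H47.DS.relCharpoly
    Fermat.Agent.H33.DS.finDimGamma1

/-- DS-1b, unconditional. -/
theorem integral_uncond : IntegralStatement :=
  Fermat.Agent.H69.DS1.integral_of_intStruct intStructGamma1_uncond

/-- DS-1c, unconditional. -/
theorem finiteConj_uncond : FiniteConjStatement :=
  Fermat.Agent.H69.DS1.finiteConj_of_conj Fermat.Agent.H6.DS.conjStatement

/-- DS-C, unconditional. -/
theorem boundedOrder_uncond : BoundedOrderStatement :=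
  boundedOrder_of_two finiteConj_uncond integral_uncond

/-- DS-2, unconditional. -/
theorem eisCongr_uncond : EisCongrStatement :=
  Fermat.Agent.H98.DS.eisCongr Fermat.Agent.H7.DS.nebentypus integral_uncond

/-- **S48 from DS-3 alone.** -/
theorem s48_of_gamma1Residual (h3 : Gamma1ResidualStatement) : S48Statement :=
  s48_of_remaining Fermat.Agent.H7.DS.nebentypus integral_uncond finiteConj_uncond h3

end Fermat.Agent.H20.DS
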