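import Fermat.Agent.H20.DS.Assembly2
import Fermat.Agent.H29.ES1.Wiring
import Fermat.Agent.H29.ES1.Descent1Final
import Fermat.Agent.H16.ES1ESNormSeries
import Fermat.Agent.H20.ES1.ESFinal2

/-!
# P-DS: S48 from the statements of P-ES1 which are still open (integration module)

`s48_of_open`: the frozen statement S48 (Deligne–Serre) follows from

* `KeyLemma1Statement` (ES1-KL, row 581),
* `DiamondLiftStatement` (clause (c) of ES1-GAL),
* `AtkinLehner1Statement` (row 666), `HeckeDegree1Statement` (row 667),
* `J1EigenStatement` (ES1-EIG, row 582).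

Everything else is landed and unconditional.  (`DiamondGaussStatement` is not needed.)
-/

set_option autoImplicit false

namespace Fermat.Agent.H20.DS

open Fermat.Agent.H29.ES1

/-- `HeckeInputs1Statement`, unconditional (from `Fermat.Agent.H29.ES1.heckeInputs1`). -/
theorem heckeInputs1Statement_uncond : Fermat.Agent.H16.HeckeInputs1Statement :=
  fun M _ hM p _ _ _ => heckeInputs1 (AlgebraicClosure ℚ) M (by omega) p

/-- The Eichler–Shimura relation on `J₁(M)[n]` from the key lemma, the Atkin–Lehner
homomorphism and the degree bound. -/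
theorem j1EichlerShimura_of_open (hKL : KeyLemma1Statement)
    (hAL : Fermat.Agent.H16.AtkinLehner1Statement)
    (hDEG : Fermat.Agent.H16.HeckeDegree1Statement) : J1EichlerShimuraStatement :=
  Fermat.Agent.H20.ES1.j1EichlerShimura_of_normSeries hKL Fermat.Agent.H57.ES1.gaussNormalForm1
    heckeInputs1Statement_uncond
    (Fermat.Agent.H16.normSeries1_of_parts hAL hDEG heckeInputs1Statement_uncond)

/-- `Gamma1ResidualStatement` from the open statements of P-ES1. -/
theorem gamma1Residual_of_open (hKL : KeyLemma1Statement)
    (hLift : Fermat.Agent.H61.ES1.DiamondLiftStatement)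
    (hAL : Fermat.Agent.H16.AtkinLehner1Statement)
    (hDEG : Fermat.Agent.H16.HeckeDegree1Statement)
    (hEIG : J1EigenStatement) : Gamma1ResidualStatement :=
  gamma1Residual_of hKL hLift (j1EichlerShimura_of_open hKL hAL hDEG) hEIG

/-- **S48 from the open statements of P-ES1.** -/
theorem s48_of_open (hKL : KeyLemma1Statement)
    (hLift : Fermat.Agent.H61.ES1.DiamondLiftStatement)
    (hAL : Fermat.Agent.H16.AtkinLehner1Statement)
    (hDEG : Fermat.Agent.H16.HeckeDegree1Statement)
    (hEIG : J1EigenStatement) : S48Statement :=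
  s48_of_gamma1Residual (gamma1Residual_of_open hKL hLift hAL hDEG hEIG)

end Fermat.Agent.H20.DS
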